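import Mathlib
import Fermat.Agent.LT.A2.H54.LocFinSpec
import Fermat.Agent.LT.T6.H176.InstLocal
import Fermat.Agent.LT.T6.H526.NormIdx

/-!
# Row LT, tower A2, station LOC-FIN (cut of helper54), leaf 09 `LeafNormIndex` (helper258)

OFF-MAIN.  `leafNormIndex258 : LF54.LeafNormIndex`, UNCONDITIONAL, dyadic places included:
for `t² - 4n ≠ 0` in `K_v` the product of two non-values of `Q(x, y) = x² + t x y + n y²` is a
value of `Q`.

* Split case (`X² - tX + n` has a root `α`): `Q(x, y) = (x + α y)(x + (t - α) y)` is universal.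
* Field case: the local norm index theorem `H526.h526_norm_of_non_mul_non` of helper526
  (`LT/T6/H526/NormIdx.lean`, from the local class field theory of S55 ON MAIN,
  `S55.L.Closed.normIndexCyclic`) for the local field `K_v` (`H176.instLocalC176` of helper176).

Same route as `A2/H277/NormIndex.lean` (helper277, Prop `LF361.NormIndexC`); byte-identical
copies of the files of helper526, helper176, helper54 (and of their closures).
-/

set_option autoImplicit false

open IsDedekindDomain NumberField

noncomputable section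

namespace Fermat.Agent.LT.A2.H258

open Fermat.Agent.LT.A2.LF54 Fermat.Agent.LT.A2.WX467 Fermat.Agent.LT.T6

/-- Split case: the norm form of a split quadratic algebra is universal. -/
theorem isNormL_of_root258 {k : Type} [NormedField k] (t n α : k)
    (hα : α ^ 2 - t * α + n = 0) (hdisc : t ^ 2 - 4 * n ≠ 0) (a : k) : IsNormL t n a := by
  have hne : 2 * α - t ≠ 0 := by
    intro h
    apply hdisc
    have ht : t = 2 * α := by linear_combination -h
    have hn : n = α ^ 2 := by rw [ht] at hα; linear_combination hα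
    rw [ht, hn]; ring
  -- `x + α y = a`, `x + (t - α) y = 1`
  obtain ⟨y, hy⟩ : ∃ y : k, y * (2 * α - t) = a - 1 :=
    ⟨(a - 1) / (2 * α - t), div_mul_cancel₀ _ hne⟩
  refine ⟨1 - (t - α) * y, y, ?_⟩
  unfold qfL
  simp only
  linear_combination hy + y ^ 2 * hα

/-- **Leaf 09 `LeafNormIndex`**, unconditional. -/
theorem leafNormIndex258 : LeafNormIndex := by
  intro K _ _ v t n hdisc a b ha hb hna hnb
  have hk : IsLocalField (v.adicCompletion K) (Ideal.absNorm v.asIdeal) :=
    H176.instLocalC176 K v
  by_cases hroot : ∃ x : v.adicCompletion K, x ^ 2 - t * x + n = 0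
  · obtain ⟨α, hα⟩ := hroot
    exact isNormL_of_root258 t n α hα hdisc (a * b)
  · have hirr : ∀ x : v.adicCompletion K, x ^ 2 - t * x + n ≠ 0 := fun x hx => hroot ⟨x, hx⟩
    have hna' : ∀ x y : v.adicCompletion K, x ^ 2 + t * x * y + n * y ^ 2 ≠ a :=
      fun x y h => hna ⟨x, y, h⟩
    have hnb' : ∀ x y : v.adicCompletion K, x ^ 2 + t * x * y + n * y ^ 2 ≠ b :=
      fun x y h => hnb ⟨x, y, h⟩
    obtain ⟨x, y, hxy⟩ := H526.h526_norm_of_non_mul_non _ hk t n hirr a b ha hb hna' hnb'
    exact ⟨x, y, hxy⟩

end Fermat.Agent.LT.A2.H258
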